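import Mathlib

set_option autoImplicit false

namespace Fermat.Agent.Helper8

open Module

section eigen

variable {K V A : Type*} [Field K] [IsAlgClosed K] [AddCommGroup V] [Module K V]
  [FiniteDimensional K V] [CommRing A]

/-- Auxiliary induction: inside any stable subspace whose annihilator lies in the prime `𝔪`
there is a nonzero stable subspace on which everything acts by scalars and whose annihilator
still lies in `𝔪`. -/
theorem exists_scalar_subspace_aux (ρ : A →+* Module.End K V) (𝔪 : Ideal A) [h𝔪 : 𝔪.IsPrime] :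
    ∀ (n : ℕ) (W : Submodule K V), finrank K W = n →
      (∀ a, ∀ w ∈ W, ρ a w ∈ W) → (∀ a, (∀ w ∈ W, ρ a w = 0) → a ∈ 𝔪) →
      ∃ W' : Submodule K V, W' ≤ W ∧ W' ≠ ⊥ ∧ (∀ a, (∀ w ∈ W', ρ a w = 0) → a ∈ 𝔪) ∧
        ∀ a, ∃ μ : K, ∀ w ∈ W', ρ a w = μ • w := by
  intro n
  induction n using Nat.strong_induction_on with
  | _ n ih =>
  intro W hn hstab hann
  have hWne : W ≠ ⊥ := by
    rintro rfl
    have : (1 : A) ∈ 𝔪 := hann 1 (by
      intro w hw
      rw [Submodule.mem_bot] at hw
      rw [hw, map_zero])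
    exact h𝔪.ne_top ((Ideal.eq_top_iff_one 𝔪).mpr this)
  by_cases hsc : ∀ a, ∃ μ : K, ∀ w ∈ W, ρ a w = μ • w
  · exact ⟨W, le_rfl, hWne, hann, hsc⟩
  · push Not at hsc
    obtain ⟨a, ha⟩ := hsc
    have hcomm : ∀ a' : A, ρ a' * ρ a = ρ a * ρ a' := fun a' => by
      rw [← map_mul, ← map_mul, mul_comm]
    -- the restriction of `ρ a` to `W` has an eigenvalue
    have : Nontrivial W := Submodule.nontrivial_iff_ne_bot.mpr hWne
    let fW : Module.End K W := (ρ a).restrict (hstab a)
    obtain ⟨μ, hμ⟩ := Module.End.exists_eigenvalue fW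
    obtain ⟨w₀, hw₀⟩ := hμ.exists_hasEigenvector
    have hw₀ne : (w₀ : V) ≠ 0 := fun h => hw₀.2 (Subtype.ext h)
    have hw₀eq : ρ a (w₀ : V) = μ • (w₀ : V) := by
      have := hw₀.apply_eq_smul
      have h2 := congrArg Subtype.val this
      simpa [fW] using h2
    set b : Module.End K V := ρ a - μ • (1 : Module.End K V) with hb
    have hb_apply : ∀ v, b v = ρ a v - μ • v := fun v => by
      simp [hb]
    have hbcomm : ∀ (a' : A) (v : V), b (ρ a' v) = ρ a' (b v) := by
      intro a' v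
      rw [hb_apply, hb_apply, map_sub, map_smul]
      have := congrArg (fun f : Module.End K V => f v) (hcomm a')
      simp only [Module.End.mul_apply] at this
      rw [this]
    have hbW : ∀ w ∈ W, b w ∈ W := fun w hw => by
      rw [hb_apply]
      exact W.sub_mem (hstab a w hw) (W.smul_mem μ hw)
    set W₁ : Submodule K V := W ⊓ LinearMap.ker b with hW₁
    set W₂ : Submodule K V := W.map b with hW₂
    have hW₁le : W₁ ≤ W := inf_le_left
    have hW₂le : W₂ ≤ W := by
      rintro _ ⟨w, hw, rfl⟩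
      exact hbW w hw
    have hW₁ne : W₁ ≠ W := by
      intro h
      obtain ⟨w, hw, hwne⟩ := ha μ
      apply hwne
      have : w ∈ W₁ := h ▸ hw
      have hbw : b w = 0 := LinearMap.mem_ker.mp this.2
      rw [hb_apply, sub_eq_zero] at hbw
      exact hbw
    have hW₂ne : W₂ ≠ W := by
      intro h
      -- `b` restricted to `W` is surjective, hence injective, but kills `w₀`
      let bW : Module.End K W := b.restrict hbW
      have hsurj : Function.Surjective bW := by
        intro ⟨y, hy⟩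
        have : y ∈ W₂ := h ▸ hy
        obtain ⟨x, hx, rfl⟩ := this
        exact ⟨⟨x, hx⟩, Subtype.ext rfl⟩
      have hinj : Function.Injective bW := LinearMap.injective_iff_surjective.mpr hsurj
      have h0 : bW w₀ = 0 := by
        apply Subtype.ext
        show b (w₀ : V) = 0
        rw [hb_apply, hw₀eq, sub_self]
      have : w₀ = 0 := hinj (by rw [h0, map_zero])
      exact hw₀.2 this
    have hlt₁ : finrank K W₁ < n := hn ▸ Submodule.finrank_lt_finrank_of_lt
      (lt_of_le_of_ne hW₁le hW₁ne)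
    have hlt₂ : finrank K W₂ < n := hn ▸ Submodule.finrank_lt_finrank_of_lt
      (lt_of_le_of_ne hW₂le hW₂ne)
    have hstab₁ : ∀ a', ∀ w ∈ W₁, ρ a' w ∈ W₁ := by
      intro a' w hw
      refine ⟨hstab a' w hw.1, ?_⟩
      show ρ a' w ∈ LinearMap.ker b
      rw [LinearMap.mem_ker, hbcomm, LinearMap.mem_ker.mp hw.2, map_zero]
    have hstab₂ : ∀ a', ∀ w ∈ W₂, ρ a' w ∈ W₂ := by
      rintro a' _ ⟨w, hw, rfl⟩
      exact ⟨ρ a' w, hstab a' w hw, hbcomm a' w⟩
    by_cases h₁ : ∀ a', (∀ w ∈ W₁, ρ a' w = 0) → a' ∈ 𝔪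
    · obtain ⟨W', hle, hne, hann', hsc'⟩ := ih _ hlt₁ W₁ rfl hstab₁ h₁
      exact ⟨W', hle.trans hW₁le, hne, hann', hsc'⟩
    by_cases h₂ : ∀ a', (∀ w ∈ W₂, ρ a' w = 0) → a' ∈ 𝔪
    · obtain ⟨W', hle, hne, hann', hsc'⟩ := ih _ hlt₂ W₂ rfl hstab₂ h₂
      exact ⟨W', hle.trans hW₂le, hne, hann', hsc'⟩
    exfalso
    push Not at h₁ h₂
    obtain ⟨s₁, hs₁, hs₁'⟩ := h₁
    obtain ⟨s₂, hs₂, hs₂'⟩ := h₂
    have hmem : s₁ * s₂ ∈ 𝔪 := by
      apply hann
      intro w hw
      rw [map_mul, Module.End.mul_apply]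
      apply hs₁
      refine ⟨hstab s₂ w hw, ?_⟩
      show ρ s₂ w ∈ LinearMap.ker b
      rw [LinearMap.mem_ker, hbcomm]
      exact hs₂ _ ⟨w, hw, rfl⟩
    rcases h𝔪.mem_or_mem hmem with h | h
    · exact hs₁' h
    · exact hs₂' h

/-- Let a commutative ring `A` act on a finite-dimensional vector space over an algebraically
closed field, and let `𝔪` be a prime ideal of `A` containing the kernel of the action. Then there
is a simultaneous eigenvector whose eigencharacter has kernel contained in `𝔪`. -/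
theorem exists_eigenvector_ker_le (ρ : A →+* Module.End K V) (𝔪 : Ideal A) [h𝔪 : 𝔪.IsPrime]
    (hker : RingHom.ker ρ ≤ 𝔪) :
    ∃ (g : V) (χ : A →+* K), g ≠ 0 ∧ (∀ a, ρ a g = χ a • g) ∧ RingHom.ker χ ≤ 𝔪 := by
  obtain ⟨W', -, hne, hann, hsc⟩ := exists_scalar_subspace_aux ρ 𝔪 _ ⊤ rfl
    (fun _ _ _ => Submodule.mem_top) (fun a ha => hker (by
      rw [RingHom.mem_ker]
      ext v
      simpa using ha v Submodule.mem_top))
  obtain ⟨g, hgW, hg⟩ := Submodule.exists_mem_ne_zero_of_ne_bot hne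
  choose μ hμ using hsc
  have hcancel : ∀ {x y : K}, x • g = y • g → x = y := by
    intro x y hxy
    have : (x - y) • g = 0 := by rw [sub_smul, hxy, sub_self]
    rcases smul_eq_zero.mp this with h | h
    · exact sub_eq_zero.mp h
    · exact absurd h hg
  let χ : A →+* K :=
    { toFun := μ
      map_one' := hcancel (by rw [← hμ 1 g hgW, map_one, one_smul, Module.End.one_apply])
      map_mul' := fun x y => hcancel (by
        rw [← hμ (x * y) g hgW, map_mul, Module.End.mul_apply, hμ y g hgW, map_smul,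
          hμ x g hgW, smul_smul, mul_comm])
      map_zero' := hcancel (by rw [← hμ 0 g hgW, map_zero, zero_smul, LinearMap.zero_apply])
      map_add' := fun x y => hcancel (by
        rw [← hμ (x + y) g hgW, map_add, LinearMap.add_apply, hμ x g hgW, hμ y g hgW, add_smul]) }
  refine ⟨g, χ, hg, fun a => hμ a g hgW, ?_⟩
  intro a ha
  rw [RingHom.mem_ker] at ha
  apply hann
  intro w hw
  have : μ a = 0 := ha
  rw [hμ a w hw, this, zero_smul]

end eigen

end Fermat.Agent.Helper8
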