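import Mathlib
import Fermat.Prelude.Def_FormalHecke_Eigensystem

set_option autoImplicit false

namespace Fermat.Agent.Helper8

open FormalHecke

variable {R : Type*} [CommRing R]

/-- Multiplicativity of a formal Hecke eigensystem. -/
theorem isEigensystem_mul_of_coprime {e a : ℕ → R} (h : IsEigensystem e a) :
    ∀ m n : ℕ, m.Coprime n → a (m * n) = a m * a n := by
  obtain ⟨h1, hrec⟩ := h
  intro m
  induction m using Nat.strong_induction_on with
  | _ m ih =>
  intro n hmn
  rcases Nat.lt_or_ge m 2 with hm | hm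
  · interval_cases m
    · -- m = 0, so n = 1
      have hn : n = 1 := by simpa using hmn
      subst hn
      rw [h1, mul_one, mul_one]
    · rw [one_mul, h1, one_mul]
  · -- m ≥ 2: peel off the smallest prime factor
    have hm1 : m ≠ 1 := by omega
    set ℓ := m.minFac with hℓ
    have hℓp : ℓ.Prime := Nat.minFac_prime hm1
    obtain ⟨m', hm'⟩ : ℓ ∣ m := Nat.minFac_dvd m
    have hm'pos : 0 < m' := by
      rcases Nat.eq_zero_or_pos m' with h0 | h0
      · rw [h0, mul_zero] at hm'; omega
      · exact h0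
    have hm'lt : m' < m := by
      rw [hm']
      exact lt_mul_of_one_lt_left hm'pos hℓp.one_lt
    have hcop' : m'.Coprime n := Nat.Coprime.coprime_dvd_left ⟨ℓ, by rw [hm', mul_comm]⟩ hmn
    have hℓn : ¬ ℓ ∣ n := by
      intro hdvd
      have : ℓ ∣ Nat.gcd m n := Nat.dvd_gcd (Nat.minFac_dvd m) hdvd
      rw [hmn] at this
      exact hℓp.one_lt.ne' (Nat.dvd_one.mp this)
    have e1 := hrec ℓ hℓp (m' * n)
    have e2 := hrec ℓ hℓp m'
    have hmn' : m * n = ℓ * (m' * n) := by rw [hm', mul_assoc]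
    rw [hmn', hm']
    by_cases hdvd : ℓ ∣ m'
    · obtain ⟨m'', hm''⟩ := hdvd
      have hm''pos : 0 < m'' := by
        rcases Nat.eq_zero_or_pos m'' with h0 | h0
        · rw [h0, mul_zero] at hm''; omega
        · exact h0
      have hm''lt : m'' < m := by
        have : m'' < m' := by
          rw [hm'']
          exact lt_mul_of_one_lt_left hm''pos hℓp.one_lt
        omega
      have hcop'' : m''.Coprime n :=
        Nat.Coprime.coprime_dvd_left ⟨ℓ, by rw [hm'', mul_comm]⟩ hcop'
      have hd1 : ℓ ∣ m' * n := Dvd.dvd.mul_right ⟨m'', hm''⟩ n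
      have hq1 : m' * n / ℓ = m'' * n := by
        rw [hm'', mul_assoc]
        exact Nat.mul_div_cancel_left _ hℓp.pos
      have hd2 : ℓ ∣ m' := ⟨m'', hm''⟩
      have hq2 : m' / ℓ = m'' := by
        rw [hm'']
        exact Nat.mul_div_cancel_left _ hℓp.pos
      rw [if_pos hd1, hq1, ih m' hm'lt n hcop', ih m'' hm''lt n hcop''] at e1
      rw [if_pos hd2, hq2] at e2
      linear_combination e1 - a n * e2
    · have hd1 : ¬ ℓ ∣ m' * n := by
        intro hd
        rcases (Nat.Prime.dvd_mul hℓp).mp hd with h | h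
        · exact hdvd h
        · exact hℓn h
      rw [if_neg hd1, ih m' hm'lt n hcop'] at e1
      rw [if_neg hdvd] at e2
      linear_combination e1 - a n * e2

/-- A formal Hecke eigensystem is recursive. -/
theorem isRecursive_of_isEigensystem {e a : ℕ → R} (h : IsEigensystem e a) :
    IsRecursive e a := by
  refine ⟨h.1, isEigensystem_mul_of_coprime h, ?_⟩
  intro ℓ r hℓ
  have e1 := h.2 ℓ hℓ (ℓ ^ (r + 1))
  have hd : ℓ ∣ ℓ ^ (r + 1) := dvd_pow_self ℓ (Nat.succ_ne_zero r)
  have hq : ℓ ^ (r + 1) / ℓ = ℓ ^ r := by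
    rw [pow_succ]
    exact Nat.mul_div_cancel _ hℓ.pos
  have hp : ℓ * ℓ ^ (r + 1) = ℓ ^ (r + 2) := by
    rw [pow_succ ℓ (r + 1), mul_comm]
  rw [if_pos hd, hq, hp] at e1
  linear_combination e1

end Fermat.Agent.Helper8
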