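import Mathlib
import Fermat.Prelude.Def_FLTPrelim_Modularity
import Fermat.Prelude.Def_CuspForm_IntegralStructure
import Fermat.Prelude.Def_CuspForm_HeckeAlgebra
import Fermat.Prelude.Thm_CongruenceSubgroup_one_mem_strictPeriods_Gamma0
import Fermat.Prelude.Thm_ModularFormClass_qCoeff_heckeT
import Fermat.Prelude.Thm_ModularFormClass_qCoeff_heckeU
import Fermat.Prelude.Thm_CuspForm_intLattice_fg
import Fermat.Prelude.Thm_CuspForm_mem_intLattice_of_mem_heckeAlgebra

set_option autoImplicit false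

namespace Fermat.Agent.Helper8

open UpperHalfPlane ModularFormClass CongruenceSubgroup

noncomputable section

variable {N : ℕ} {k : ℤ}

theorem one_mem_strictPeriods (N : ℕ) :
    (1 : ℝ) ∈ (Subgroup.map (Matrix.SpecialLinearGroup.mapGL ℝ) (Gamma0 N)).strictPeriods :=
  CongruenceSubgroup.one_mem_strictPeriods_Gamma0 N

theorem qCoeff_add (f g : CuspForm (Gamma0 N) k) (n : ℕ) :
    qCoeff ⇑(f + g) n = qCoeff ⇑f n + qCoeff ⇑g n := by
  simp only [qCoeff, FunLike.coe_add]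
  rw [ModularForm.qExpansion_add one_pos (one_mem_strictPeriods N) f g, map_add]

theorem qCoeff_sub (f g : CuspForm (Gamma0 N) k) (n : ℕ) :
    qCoeff ⇑(f - g) n = qCoeff ⇑f n - qCoeff ⇑g n := by
  simp only [qCoeff, FunLike.coe_sub]
  rw [ModularForm.qExpansion_sub one_pos (one_mem_strictPeriods N) f g, map_sub]

theorem qCoeff_zero' (n : ℕ) : qCoeff ⇑(0 : CuspForm (Gamma0 N) k) n = 0 := by
  simp only [qCoeff, FunLike.coe_zero]
  rw [UpperHalfPlane.qExpansion_zero, map_zero]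

theorem qCoeff_smul (c : ℂ) (f : CuspForm (Gamma0 N) k) (n : ℕ) :
    qCoeff ⇑(c • f) n = c * qCoeff ⇑f n := by
  have h1 : ⇑(c • f) = c • ⇑f := by
    ext z
    simp
  simp only [qCoeff, h1]
  rw [ModularForm.qExpansion_smul one_pos (one_mem_strictPeriods N) c f]
  simp

theorem qCoeff_zsmul (c : ℤ) (f : CuspForm (Gamma0 N) k) (n : ℕ) :
    qCoeff ⇑(c • f) n = c * qCoeff ⇑f n := by
  have h1 : ⇑(c • f) = (c : ℂ) • ⇑f := by
    ext z
    simp
  simp only [qCoeff, h1]
  rw [ModularForm.qExpansion_smul one_pos (one_mem_strictPeriods N) (c : ℂ) f]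
  simp

/-- The constant coefficient of a cusp form vanishes. -/
theorem qCoeff_cusp_zero (f : CuspForm (Gamma0 N) k) : qCoeff ⇑f 0 = 0 :=
  CuspFormClass.qExpansion_coeff_zero f one_pos (one_mem_strictPeriods N)

/-- A cusp form is determined by its `q`-coefficients. -/
theorem eq_zero_of_qCoeff_eq_zero (f : CuspForm (Gamma0 N) k) (h : ∀ n, qCoeff ⇑f n = 0) :
    f = 0 := by
  have hq : qExpansion 1 ⇑f = 0 := by
    ext n
    simpa [qCoeff] using h n
  have : Fact (IsCusp OnePoint.infty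
      (Subgroup.map (Matrix.SpecialLinearGroup.mapGL ℝ) (Gamma0 N))) :=
    ⟨Subgroup.isCusp_of_mem_strictPeriods one_pos (one_mem_strictPeriods N)⟩
  have := (UpperHalfPlane.qExpansion_eq_zero_iff one_pos
    (SlashInvariantFormClass.periodic_comp_ofComplex f (one_mem_strictPeriods N)) (holo f)
    (bdd_at_infty f)).mp hq
  exact DFunLike.coe_injective (this.trans FunLike.coe_zero.symm)

theorem qCoeff_heckeTLin {p : ℕ} (hp : p.Prime) (hpN : ¬ p ∣ N)
    (f : CuspForm (Gamma0 N) k) (n : ℕ) :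
    qCoeff ⇑(CuspForm.heckeTLin k hp hpN f) n = ModularForm.coeffHeckeT k p (qCoeff ⇑f) n := by
  rw [CuspForm.coe_heckeTLin_apply]
  exact ModularFormClass.qCoeff_heckeT f (one_mem_strictPeriods N) hp.ne_zero n

theorem qCoeff_heckeULin [NeZero N] {p : ℕ} (hp : p.Prime) (hpN : p ∣ N)
    (f : CuspForm (Gamma0 N) k) (n : ℕ) :
    qCoeff ⇑(CuspForm.heckeULin k hpN f) n = ModularForm.coeffHeckeU p (qCoeff ⇑f) n := by
  rw [CuspForm.coe_heckeULin_apply]
  exact ModularFormClass.qCoeff_heckeU f (one_mem_strictPeriods N) hp.ne_zero n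

/-- The integral lattice as an explicit submodule. -/
def intSubmodule (N : ℕ) (k : ℤ) : Submodule ℤ (CuspForm (Gamma0 N) k) where
  carrier := {f | ∀ n : ℕ, ∃ m : ℤ, qCoeff f n = (m : ℂ)}
  add_mem' {f g} hf hg n := by
    obtain ⟨a, ha⟩ := hf n
    obtain ⟨b, hb⟩ := hg n
    exact ⟨a + b, by rw [qCoeff_add, ha, hb]; push_cast; ring⟩
  zero_mem' n := ⟨0, by rw [qCoeff_zero']; simp⟩
  smul_mem' c {f} hf n := by
    obtain ⟨a, ha⟩ := hf n
    exact ⟨c * a, by rw [qCoeff_zsmul, ha]; push_cast; ring⟩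

theorem intLattice_eq (N : ℕ) (k : ℤ) : CuspForm.intLattice N k = intSubmodule N k :=
  Submodule.span_eq (intSubmodule N k)

theorem mem_intLattice_iff (f : CuspForm (Gamma0 N) k) :
    f ∈ CuspForm.intLattice N k ↔ ∀ n : ℕ, ∃ m : ℤ, qCoeff f n = (m : ℂ) := by
  rw [intLattice_eq]
  rfl

end

end Fermat.Agent.Helper8
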