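import Mathlib
import Fermat.Agent.Helper8.QCoeff
import Fermat.Agent.Helper8.EigenLemma
import Fermat.Agent.Helper8.FormalHeckeRec
import Fermat.Prelude.Def_CuspForm_IntegralLattice
import Fermat.Prelude.Def_FormalHecke_Eigensystem
import Fermat.Prelude.Def_ModularForm_EisensteinChiNegThree
import Fermat.Prelude.Def_FLTPrelim_Modularity

set_option autoImplicit false
open CuspForm EisensteinWeightOne CongruenceSubgroup ModularFormClass

namespace Fermat.Agent.Helper8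

noncomputable section

/-- `e1Chi3` is congruent to `1` modulo `3`, so the bridge product is congruent to `a`. -/
theorem bridgeProduct_coeff_sub (a : ℕ → ℤ) (n : ℕ) :
    (3 : ℤ) ∣ (bridgeProduct a).coeff n - a n := by
  have he : e1Chi3In ℤ = 1 + PowerSeries.C (3 : ℤ) *
      PowerSeries.mk (fun n => if n = 0 then 0 else 2 * sigmaChi n) := by
    ext m
    simp only [e1Chi3In, e1Chi3, PowerSeries.coeff_map, PowerSeries.coeff_mk, map_add,
      PowerSeries.coeff_one, PowerSeries.coeff_C_mul]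
    by_cases hm : m = 0
    · simp [hm]
    · simp [hm]; ring
  have : bridgeProduct a = PowerSeries.mk a + PowerSeries.C (3 : ℤ) *
      (PowerSeries.mk a * PowerSeries.mk (fun n => if n = 0 then 0 else 2 * sigmaChi n)) := by
    rw [bridgeProduct, he]; ring
  rw [this, map_add, PowerSeries.coeff_C_mul, PowerSeries.coeff_mk, add_sub_cancel_left]
  exact ⟨_, rfl⟩

theorem chiNegThree_sub_self (ℓ : ℕ) : (3 : ℤ) ∣ (ℓ : ℤ) - chiNegThree ℓ := by
  unfold chiNegThree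
  split_ifs <;> omega

variable {N : ℕ}

theorem mem_intLattice_of_mem_qIntegralSet {f : CuspForm (Gamma0 N) 2}
    (hf : f ∈ CuspForm.qIntegralSet N) : f ∈ CuspForm.intLattice N 2 := by
  rw [mem_intLattice_iff]
  intro n
  obtain ⟨m, hm⟩ := Subring.mem_bot.mp (hf n)
  exact ⟨m, hm.symm⟩

theorem span_intLattice_eq_top (h : CuspForm.HasIntegralBasis N) :
    Submodule.span ℂ ((CuspForm.intLattice N 2 : Submodule ℤ (CuspForm (Gamma0 N) 2)) :
      Set (CuspForm (Gamma0 N) 2)) = ⊤ := by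
  rw [eq_top_iff, ← h]
  exact Submodule.span_mono fun f hf => mem_intLattice_of_mem_qIntegralSet hf

theorem intCast_end_apply (z : ℤ) (f : CuspForm (Gamma0 N) 2) :
    ((z : ℤ) : Module.End ℂ (CuspForm (Gamma0 N) 2)) f = (z : ℂ) • f := by
  rw [← map_intCast (algebraMap ℂ (Module.End ℂ (CuspForm (Gamma0 N) 2))) z,
    Module.algebraMap_end_apply]

theorem natCast_end_apply (z : ℕ) (f : CuspForm (Gamma0 N) 2) :
    ((z : ℕ) : Module.End ℂ (CuspForm (Gamma0 N) 2)) f = (z : ℂ) • f := by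
  rw [← map_natCast (algebraMap ℂ (Module.End ℂ (CuspForm (Gamma0 N) 2))) z,
    Module.algebraMap_end_apply]

/-- forms all of whose coefficients are 3 times an integer -/
def ThreeDiv (v : CuspForm (Gamma0 N) 2) : Prop :=
  ∀ n : ℕ, ∃ m : ℤ, qCoeff ⇑v n = 3 * (m : ℂ)

theorem ThreeDiv.exists_eq_smul {v : CuspForm (Gamma0 N) 2} (hv : ThreeDiv v) :
    ∃ g ∈ CuspForm.intLattice N 2, v = (3 : ℂ) • g := by
  refine ⟨(3 : ℂ)⁻¹ • v, ?_, ?_⟩
  · rw [mem_intLattice_iff]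
    intro n
    obtain ⟨m, hm⟩ := hv n
    refine ⟨m, ?_⟩
    rw [qCoeff_smul, hm]
    field_simp
  · rw [smul_smul, mul_inv_cancel₀ (by norm_num), one_smul]

variable [NeZero N]

theorem finiteDimensional_of_hasIntegralBasis (h : CuspForm.HasIntegralBasis N) :
    FiniteDimensional ℂ (CuspForm (Gamma0 N) 2) := by
  obtain ⟨s, hs⟩ := CuspForm.intLattice_fg N 2
  refine Module.finite_def.mpr ⟨s, ?_⟩
  rw [eq_top_iff, ← span_intLattice_eq_top h]
  apply Submodule.span_le.mpr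
  intro f hf
  have hf' : f ∈ Submodule.span ℤ (s : Set (CuspForm (Gamma0 N) 2)) := by
    rw [hs]; exact hf
  exact Submodule.span_subset_span ℤ ℂ _ hf'

/-- The full weight-two Hecke algebra of level `N` (all `T_ℓ` and all `U_q`). -/
abbrev HeckeT (N : ℕ) [NeZero N] := CuspForm.heckeAlgebra N 2 (∅ : Set ℕ)

/-- Restriction of the Hecke algebra to the integral lattice. -/
def restrictLattice (N : ℕ) [NeZero N] :
    HeckeT N →+* Module.End ℤ (CuspForm.intLattice N 2) where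
  toFun t := ((t : Module.End ℂ (CuspForm (Gamma0 N) 2)).restrictScalars ℤ).restrict
    (fun _ hf => CuspForm.mem_intLattice_of_mem_heckeAlgebra (by norm_num) t.2 hf)
  map_one' := by ext; rfl
  map_mul' := by intros; ext; rfl
  map_zero' := by ext; rfl
  map_add' := by intros; ext; rfl

theorem restrictLattice_injective (h : CuspForm.HasIntegralBasis N) :
    Function.Injective (restrictLattice N) := by
  rw [injective_iff_map_eq_zero]
  intro t ht
  apply Subtype.ext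
  show (t : Module.End ℂ (CuspForm (Gamma0 N) 2)) = 0
  have hker : Submodule.span ℂ ((CuspForm.intLattice N 2 :
      Submodule ℤ (CuspForm (Gamma0 N) 2)) : Set (CuspForm (Gamma0 N) 2)) ≤
      LinearMap.ker (t : Module.End ℂ (CuspForm (Gamma0 N) 2)) := by
    apply Submodule.span_le.mpr
    intro f hf
    have := congrArg (fun u : Module.End ℤ (CuspForm.intLattice N 2) =>
      (u ⟨f, hf⟩ : CuspForm (Gamma0 N) 2)) ht
    exact this
  rw [span_intLattice_eq_top h, top_le_iff] at hker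
  exact LinearMap.ker_eq_top.mp hker

theorem isIntegral_heckeT (h : CuspForm.HasIntegralBasis N) (t : HeckeT N) : IsIntegral ℤ t := by
  have : Module.Finite ℤ (CuspForm.intLattice N 2) :=
    Module.Finite.iff_fg.mpr (CuspForm.intLattice_fg N 2)
  have h1 : IsIntegral ℤ ((restrictLattice N).toIntAlgHom t) :=
    Algebra.IsIntegral.isIntegral _
  exact (isIntegral_algHom_iff (restrictLattice N).toIntAlgHom (restrictLattice_injective h)).mp h1

/-- The ideal of Hecke operators sending `f₀` into `3 L`. -/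
def congIdeal (f₀ : CuspForm (Gamma0 N) 2) : Ideal (HeckeT N) where
  carrier := {t | ThreeDiv ((t : Module.End ℂ (CuspForm (Gamma0 N) 2)) f₀)}
  add_mem' := by
    intro s t hs ht n
    obtain ⟨x, hx⟩ := hs n
    obtain ⟨y, hy⟩ := ht n
    refine ⟨x + y, ?_⟩
    show qCoeff ⇑(((s : Module.End ℂ (CuspForm (Gamma0 N) 2)) + t) f₀) n = _
    rw [LinearMap.add_apply, qCoeff_add, hx, hy]
    push_cast; ring
  zero_mem' := by
    intro n
    refine ⟨0, ?_⟩
    show qCoeff ⇑((0 : Module.End ℂ (CuspForm (Gamma0 N) 2)) f₀) n = _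
    rw [LinearMap.zero_apply, qCoeff_zero']
    simp
  smul_mem' := by
    intro s t ht n
    obtain ⟨g, hg, hg3⟩ := ThreeDiv.exists_eq_smul ht
    have hsg : (s : Module.End ℂ (CuspForm (Gamma0 N) 2)) g ∈ CuspForm.intLattice N 2 :=
      CuspForm.mem_intLattice_of_mem_heckeAlgebra (by norm_num) s.2 hg
    obtain ⟨m, hm⟩ := (mem_intLattice_iff _).mp hsg n
    refine ⟨m, ?_⟩
    show qCoeff ⇑(((s : Module.End ℂ (CuspForm (Gamma0 N) 2)) * t) f₀) n = _
    rw [Module.End.mul_apply, hg3, map_smul, qCoeff_smul, hm]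

theorem mem_congIdeal {f₀ : CuspForm (Gamma0 N) 2} {t : HeckeT N} :
    t ∈ congIdeal f₀ ↔ ThreeDiv ((t : Module.End ℂ (CuspForm (Gamma0 N) 2)) f₀) := Iff.rfl

section

variable {a : ℕ → ℤ} {f₀ : CuspForm (Gamma0 N) 2} {af : ℕ → ℤ}

theorem natCast_three_mem_congIdeal (haf : ∀ n, (af n : ℂ) = qCoeff ⇑f₀ n) :
    ((3 : ℕ) : HeckeT N) ∈ congIdeal f₀ := by
  rw [mem_congIdeal]
  intro n
  refine ⟨af n, ?_⟩
  have : (((3 : ℕ) : HeckeT N) : Module.End ℂ (CuspForm (Gamma0 N) 2)) f₀ = (3 : ℂ) • f₀ := by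
    show ((3 : ℕ) : Module.End ℂ (CuspForm (Gamma0 N) 2)) f₀ = _
    rw [natCast_end_apply]
    norm_num
  rw [this, qCoeff_smul, haf]

theorem one_notMem_congIdeal (haf : ∀ n, (af n : ℂ) = qCoeff ⇑f₀ n)
    (hcong : ∀ n, (3 : ℤ) ∣ af n - a n) (ha1 : a 1 = 1) :
    (1 : HeckeT N) ∉ congIdeal f₀ := by
  rw [mem_congIdeal]
  intro h
  obtain ⟨m, hm⟩ := h 1
  have h1 : ((1 : HeckeT N) : Module.End ℂ (CuspForm (Gamma0 N) 2)) f₀ = f₀ := rfl
  rw [h1, ← haf] at hm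
  have hm' : af 1 = 3 * m := by exact_mod_cast hm
  have := hcong 1
  rw [ha1, hm'] at this
  omega

theorem heckeT_sub_mem_congIdeal (haf : ∀ n, (af n : ℂ) = qCoeff ⇑f₀ n)
    (hcong : ∀ n, (3 : ℤ) ∣ af n - a n)
    (heig : FormalHecke.IsEigensystem
      (fun ℓ => if ℓ ∣ N then 0 else ((chiNegThree ℓ : ℤ) : ℤ)) a)
    {ℓ : ℕ} (hℓ : ℓ.Prime) (hℓN : ¬ ℓ ∣ N) :
    (heckeAlgebra.T hℓ hℓN (Set.notMem_empty ℓ) - ((a ℓ : ℤ) : HeckeT N) : HeckeT N) ∈
      congIdeal f₀ := by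
  rw [mem_congIdeal]
  intro n
  have hcoe : ((heckeAlgebra.T hℓ hℓN (Set.notMem_empty ℓ) - ((a ℓ : ℤ) : HeckeT N) : HeckeT N) :
      Module.End ℂ (CuspForm (Gamma0 N) 2)) f₀ =
      CuspForm.heckeTLin 2 hℓ hℓN f₀ - ((a ℓ : ℤ) : ℂ) • f₀ := by
    show (CuspForm.heckeTLin 2 hℓ hℓN - ((a ℓ : ℤ) : Module.End ℂ (CuspForm (Gamma0 N) 2))) f₀ = _
    rw [LinearMap.sub_apply, intCast_end_apply]
  rw [hcoe, qCoeff_sub, qCoeff_smul, qCoeff_heckeTLin, ModularForm.coeffHeckeT_apply]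
  simp only [← haf]
  have e := heig.2 ℓ hℓ n
  simp only [if_neg hℓN] at e
  obtain ⟨x1, hx1⟩ := hcong (n * ℓ)
  obtain ⟨x2, hx2⟩ := hcong (n / ℓ)
  obtain ⟨x3, hx3⟩ := hcong n
  obtain ⟨x4, hx4⟩ := chiNegThree_sub_self ℓ
  have hmul : ℓ * n = n * ℓ := mul_comm _ _
  rw [hmul] at e
  by_cases hd : ℓ ∣ n
  · rw [if_pos hd] at e ⊢
    refine ⟨x1 + x4 * af (n / ℓ) + chiNegThree ℓ * x2 - a ℓ * x3, ?_⟩
    have : (af (n * ℓ) + (ℓ : ℤ) * af (n / ℓ) - a ℓ * af n : ℤ) =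
        3 * (x1 + x4 * af (n / ℓ) + chiNegThree ℓ * x2 - a ℓ * x3) := by
      linear_combination hx1 + af (n / ℓ) * hx4 + chiNegThree ℓ * hx2 - a ℓ * hx3 + e
    have h2 : ((ℓ : ℂ)) ^ ((2 : ℤ) - 1) = (ℓ : ℂ) := by norm_num
    rw [h2]
    exact_mod_cast this
  · rw [if_neg hd] at e ⊢
    refine ⟨x1 - a ℓ * x3, ?_⟩
    have : (af (n * ℓ) - a ℓ * af n : ℤ) = 3 * (x1 - a ℓ * x3) := by
      linear_combination hx1 - a ℓ * hx3 + e
    rw [add_zero]
    exact_mod_cast this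

end

/-- the weight-two "character" `ℓ ↦ ℓ` away from the level -/
def eLevel (N : ℕ) (ℓ : ℕ) : ℂ := if ℓ ∣ N then 0 else (ℓ : ℂ)

/-- eigenvalue function attached to a character of the Hecke algebra -/
def eigenvalueFn (χ : HeckeT N →+* ℂ) (ℓ : ℕ) : ℂ :=
  if hℓ : ℓ.Prime then
    (if hN : ℓ ∣ N then χ (heckeAlgebra.U hℓ hN (Set.notMem_empty ℓ))
      else χ (heckeAlgebra.T hℓ hN (Set.notMem_empty ℓ)))
  else 0

theorem qCoeff_rel {g : CuspForm (Gamma0 N) 2} (χ : HeckeT N →+* ℂ)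
    (hχ : ∀ t : HeckeT N, (t : Module.End ℂ (CuspForm (Gamma0 N) 2)) g = χ t • g)
    {ℓ : ℕ} (hℓ : ℓ.Prime) (n : ℕ) :
    qCoeff ⇑g (ℓ * n) + eLevel N ℓ * (if ℓ ∣ n then qCoeff ⇑g (n / ℓ) else 0) =
      eigenvalueFn χ ℓ * qCoeff ⇑g n := by
  rw [eigenvalueFn, dif_pos hℓ, eLevel]
  by_cases hN : ℓ ∣ N
  · rw [dif_pos hN, if_pos hN, zero_mul, add_zero]
    have h1 := hχ (heckeAlgebra.U hℓ hN (Set.notMem_empty ℓ))
    rw [heckeAlgebra.coe_U] at h1
    have h2 := congrArg (fun v : CuspForm (Gamma0 N) 2 => qCoeff ⇑v n) h1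
    simp only [qCoeff_heckeULin hℓ, qCoeff_smul, ModularForm.coeffHeckeU_apply] at h2
    rw [mul_comm ℓ n]
    exact h2
  · rw [dif_neg hN, if_neg hN]
    have h1 := hχ (heckeAlgebra.T hℓ hN (Set.notMem_empty ℓ))
    rw [heckeAlgebra.coe_T] at h1
    have h2 := congrArg (fun v : CuspForm (Gamma0 N) 2 => qCoeff ⇑v n) h1
    simp only [qCoeff_heckeTLin, qCoeff_smul, ModularForm.coeffHeckeT_apply] at h2
    rw [mul_comm ℓ n, ← h2]
    have h3 : ((ℓ : ℂ)) ^ ((2 : ℤ) - 1) = (ℓ : ℂ) := by norm_num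
    rw [h3]
    split_ifs <;> simp

theorem qCoeff_one_ne_zero {g : CuspForm (Gamma0 N) 2} (hg : g ≠ 0) (χ : HeckeT N →+* ℂ)
    (hχ : ∀ t : HeckeT N, (t : Module.End ℂ (CuspForm (Gamma0 N) 2)) g = χ t • g) :
    qCoeff ⇑g 1 ≠ 0 := by
  intro h1
  apply hg
  apply eq_zero_of_qCoeff_eq_zero
  intro n
  induction n using Nat.strong_induction_on with
  | _ n ih =>
  rcases Nat.lt_or_ge n 2 with hn | hn
  · interval_cases n
    · exact qCoeff_cusp_zero g
    · exact h1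
  · have hn1 : n ≠ 1 := by omega
    have hℓp : n.minFac.Prime := Nat.minFac_prime hn1
    obtain ⟨m, hm⟩ : n.minFac ∣ n := Nat.minFac_dvd n
    have hmpos : 0 < m := by
      rcases Nat.eq_zero_or_pos m with h0 | h0
      · rw [h0, mul_zero] at hm; omega
      · exact h0
    have hmlt : m < n := by
      conv_rhs => rw [hm]
      exact lt_mul_of_one_lt_left hmpos hℓp.one_lt
    have hrel := qCoeff_rel χ hχ hℓp m
    rw [← hm, ih m hmlt, mul_zero] at hrel
    have hdiv : qCoeff ⇑g (m / n.minFac) = 0 := ih _ (lt_of_le_of_lt (Nat.div_le_self _ _) hmlt)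
    rw [hdiv] at hrel
    simpa using hrel

theorem exists_normalizedEigenform {g : CuspForm (Gamma0 N) 2} (hg : g ≠ 0) (χ : HeckeT N →+* ℂ)
    (hχ : ∀ t : HeckeT N, (t : Module.End ℂ (CuspForm (Gamma0 N) 2)) g = χ t • g) :
    ∃ g' : CuspForm (Gamma0 N) 2, g'.IsNormalizedEigenform ∧
      ∀ (ℓ : ℕ) (hℓ : ℓ.Prime) (hℓN : ¬ ℓ ∣ N),
        qCoeff ⇑g' ℓ = χ (heckeAlgebra.T hℓ hℓN (Set.notMem_empty ℓ)) := by
  have hc1 := qCoeff_one_ne_zero hg χ hχ
  set g' : CuspForm (Gamma0 N) 2 := (qCoeff ⇑g 1)⁻¹ • g with hg'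
  have hχ' : ∀ t : HeckeT N, (t : Module.End ℂ (CuspForm (Gamma0 N) 2)) g' = χ t • g' := by
    intro t
    rw [hg', map_smul, hχ t, smul_comm]
  have hone : qCoeff ⇑g' 1 = 1 := by
    rw [hg', qCoeff_smul, inv_mul_cancel₀ hc1]
  have hval : ∀ ℓ : ℕ, ℓ.Prime → qCoeff ⇑g' ℓ = eigenvalueFn χ ℓ := by
    intro ℓ hℓ
    have := qCoeff_rel χ hχ' hℓ 1
    rw [mul_one, hone, mul_one, if_neg (by simpa using hℓ.ne_one), mul_zero, add_zero] at this
    exact this
  have heig : FormalHecke.IsEigensystem (eLevel N) (fun n => qCoeff ⇑g' n) := by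
    refine ⟨hone, fun ℓ hℓ n => ?_⟩
    show qCoeff ⇑g' (ℓ * n) + eLevel N ℓ * (if ℓ ∣ n then qCoeff ⇑g' (n / ℓ) else 0) =
      qCoeff ⇑g' ℓ * qCoeff ⇑g' n
    rw [hval ℓ hℓ]
    exact qCoeff_rel χ hχ' hℓ n
  obtain ⟨-, hmul, hpow⟩ := isRecursive_of_isEigensystem heig
  refine ⟨g', ⟨hone, hmul, ?_, ?_⟩, ?_⟩
  · intro p r hp hpN
    have := hpow p r hp
    simp only [eLevel, if_neg hpN] at this
    exact this
  · intro p r hp hpN
    have := hpow p r hp
    simp only [eLevel, if_pos hpN, zero_mul, sub_zero] at this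
    exact this
  · intro ℓ hℓ hℓN
    rw [hval ℓ hℓ, eigenvalueFn, dif_pos hℓ, dif_neg hℓN]

end
end Fermat.Agent.Helper8
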